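import Fermat.Agent.RT.Tate.Point
import Fermat.Agent.RT.World.Point
import Fermat.Agent.RT.HeckeRep.Point
import Fermat.Agent.RT.Setting.Point

/-!
# The end of the chain

The point of the Tate module descends through a system of finite levels to an eigenform with the
coefficients of the curve.
-/

set_option autoImplicit false
set_option linter.unusedSectionVars false

noncomputable section

open IsLocalRing Matrix WeierstrassCurve FLTAgent.Deformation FLTAgent.GalRep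

namespace FLTAgent.RT.Tate

local notation "Qb" => AlgebraicClosure ℚ

variable {W : WeierstrassCurve ℤ} (hΔ : W.Δ ≠ 0) (p : ℕ) [hp : Fact p.Prime]
  {𝒪 : Type} [CommRing 𝒪] [IsDomain 𝒪] [IsDiscreteValuationRing 𝒪]
  [IsAdicComplete (maximalIdeal 𝒪) 𝒪] (ψ : ℤ_[p] →+* 𝒪) (hpO : (p : 𝒪) ∈ maximalIdeal 𝒪)

/-- A point of `M` composed with a map carrying `M'` to a conjugate of `M` is a point of `M'`. -/
theorem IsTatePoint.comp {R R' : Type} [CommRing R] [Algebra 𝒪 R] [CommRing R'] [Algebra 𝒪 R']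
    {M : Gal →* Mat R} {M' : Gal →* Mat R'} {x : R →ₐ[𝒪] 𝒪} (hx : IsTatePoint hΔ p ψ M x)
    (f : R' →ₐ[𝒪] R) (hf : ∃ w : (Mat R)ˣ, mapRep (f : R' →+* R) M' = conjRep w M) :
    IsTatePoint hΔ p ψ M' (x.comp f) := by
  obtain ⟨u, hu⟩ := hx
  obtain ⟨w, hw⟩ := hf
  refine ⟨Units.map (RingHom.mapMatrix (m := Fin 2) (x : R →+* 𝒪)).toMonoidHom w * u, ?_⟩
  rw [show ((x.comp f : R' →ₐ[𝒪] 𝒪) : R' →+* 𝒪) = (x : R →+* 𝒪).comp (f : R' →+* R) from rfl,
    ← mapRep_mapRep, hw, mapRep_conjRep, hu, conjRep_conjRep]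

variable {R : Type} [CommRing R] [IsLocalRing R] [Algebra 𝒪 R] {M : Gal →* Mat R}
  {x : R →ₐ[𝒪] 𝒪}

theorem trace_phiMat_point (hx : IsTatePoint hΔ p ψ M x) {D : LocalDatum 𝒪}
    {A : ValuationSubring Qb} {φ : Gal} (C : Gen.LocalCoord D M A φ) :
    (D.phiMat fun k => x (C.v k)).trace = ψ (FLTAgent.Tate.tateMat hΔ p φ).trace := by
  rw [← D.phiMat_map x, Matrix.trace_fin_two, Matrix.map_apply, Matrix.map_apply, ← map_add,
    ← Matrix.trace_fin_two, ← C.phi_eq, conjRep_apply, Matrix.trace_units_conj,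
    trace_point hΔ p ψ hx]

variable [Finite (ResidueField 𝒪)] [CharZero 𝒪]

include hpO in
/-- **The end of the chain**: with a system whose base level carries the action of the
deformation ring, the curve is modular of the base level. -/
theorem isModularModelOfLevel_of_system (hss : W.IsSemistableModel) (hp2 : p ≠ 2)
    {ι X : Type} [Fintype ι] [DecidableEq ι] [Finite X] (D : ι → LocalDatum 𝒪)
    (qs : ι → ℕ) (hqs : ∀ i, (qs i).Prime ∧ qs i ≠ p ∧ (qs i : ℤ) ∣ W.Δ ∧ (D i).q = qs i)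
    (A : ι → ValuationSubring Qb) (hA : ∀ i, (A i).LiesOverPrime (qs i)) (φ : ι → Gal)
    (hφ : ∀ i, (A i).IsFrobeniusAt (φ i) (qs i))
    {r : ℕ} (sys : System D X r) (h2 : IsUnit (2 : 𝒪))
    (hr : Nat.card ((Σ i, Fin (D i).h0) ⊕ X) ≤ r) (h0 : 0 < sys.rank ∅)
    -- the deformation ring of the base level
    (ι₀ : ZMod p →+* ResidueField 𝒪)
    {𝒟 : ∀ ⦃A : Type⦄ [CommRing A] [IsLocalRing A] [Algebra 𝒪 A], GaloisRepAdic A → Prop}
    (h𝒟 : ∀ (g : (Mat 𝒪)ˣ) (hN : MatCont (conjRep g (tateO hΔ p ψ))),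
      𝒟 (matRep (conjRep g (tateO hΔ p ψ)) hN))
    (D₀ : GaloisRep.DeformationRingData 𝒪 ((LevelDrop.torsRep hΔ p).baseChangeAlong ι₀) 𝒟)
    {M₀ : Gal →* Mat D₀.R} {hM₀ : MatCont M₀} (hequiv : D₀.ρ.IsEquiv (matRep M₀ hM₀))
    (φ₀ : D₀.R →ₐ[𝒪] Matrix (Fin (sys.rank Finset.univ)) (Fin (sys.rank Finset.univ)) 𝒪)
    -- the deformation rings of the levels
    (R : ℕ → Type) [∀ n, CommRing (R n)] [∀ n, IsLocalRing (R n)] [∀ n, Algebra 𝒪 (R n)]
    (hR : ∀ n, IsCoeff 𝒪 (R n)) (M : ∀ n, Gal →* Mat (R n))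
    (C : ∀ n i, Gen.LocalCoord (D i) (M n) (A i) (φ i))
    (γ : ∀ n, MvPowerSeries (LocVar ι X) 𝒪 →ₐ[𝒪] R n) (hγ : ∀ n, Function.Surjective (γ n))
    (hγC : ∀ n i k, γ n (locCoord i k) = (C n i).v k)
    (f : ∀ n, R n →ₐ[𝒪] D₀.R) (hf : ∀ n, Function.Surjective (f n))
    (hfM : ∀ n, ∃ w : (Mat D₀.R)ˣ, mapRep (f n : R n →+* D₀.R) (M n) = conjRep w M₀)
    (hdia : ∀ n (j : Fin r), ∃ (q : ℕ) (B : ValuationSubring Qb) (τ : Gal), q.Prime ∧ q ≠ p ∧
      B.LiesOverPrime q ∧ τ ∈ B.inertiaSubgroupIn ℚ ∧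
      γ n (sys.dia n Finset.univ j) = (M n τ).trace)
    (hbase : ∀ n g, (sys.act n Finset.univ g).map (augT r n) =
      (φ₀ (f n (γ n g))).map (Ideal.Quotient.mk (maximalIdeal 𝒪 ^ n)))
    -- the Hecke algebra of the level
    {N : ℕ} [NeZero N] {S : Finset ℕ} (hSN : ∀ q : ℕ, q.Prime → q ∣ N → q ∈ S)
    (hS : ∀ q : ℕ, q.Prime → q ∉ S → W.IsGoodPrimeFor q ∧ q ≠ p)
    {P : Type} [AddCommGroup P] [Module 𝒪 P] (Θ : awayHecke N →+* Module.End 𝒪 P)
    (φP : D₀.R →ₐ[𝒪] Module.End 𝒪 P) (hφP : ∀ a, φP a = 0 → φ₀ a = 0)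
    (hΘ : ∀ t, Θ (restrictAway hSN t) ∈ φP.range)
    (hΘT : ∀ (ℓ : ℕ) (hℓ : ℓ.Prime) (hℓN : ¬ ℓ ∣ N), ℓ ∉ S →
      ∀ B : ValuationSubring Qb, B.LiesOverPrime ℓ →
        ∀ σ : Gal, B.IsFrobeniusAt σ ℓ → φP (M₀ σ).trace = Θ (awayT N hℓ hℓN)) :
    W.IsModularModelOfLevel N := by
  obtain ⟨x, hx⟩ := exists_isTatePoint hΔ p ψ hpO ι₀ h𝒟 D₀ hequiv
  have hxn : ∀ n, IsTatePoint hΔ p ψ (M n) (x.comp (f n)) := fun n => hx.comp hΔ p ψ _ (hfM n)
  have hv : ∀ n i, (fun k => x (f n (γ n (locCoord i k)))) =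
      fun k => (x.comp (f n)) ((C n i).v k) := fun n i => funext fun k => by
    rw [hγC]; rfl
  choose ε hε1 hεtr hεok _ using fun i => exists_sign_point hΔ p ψ hp2 (hR 0) (hxn 0)
    (hqs i).1 (hqs i).2.1 (hqs i).2.2.2 (hqs i).2.2.1 (hss _ (hqs i).1 (hqs i).2.2.1) (hA i)
    (hφ i) (C 0 i)
  choose K hK using fun i => exists_ramified_point hΔ p ψ hpO hp2 (hqs i).1 (hqs i).2.2.1
    (hss _ (hqs i).1 (hqs i).2.2.1) (hA i)
  have hkills : ∀ a, φP a = 0 → x a = 0 := fun a ha =>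
    sys.point_kills h2 hr h0 (ε := fun i => (ε i : 𝒪)) hεok (fun n => (f n).comp (γ n))
      (fun n => (hf n).comp (hγ n)) φ₀ hbase x
      (fun n i => by
        show (D i).Rel 2 fun k => x (f n (γ n (locCoord i k)))
        rw [hv]
        exact rel_point hΔ p ψ hss (hxn n) (hqs i).1 (hqs i).2.1 (hA i) (C n i))
      (fun n i => by
        show (D i).IsNorm fun k => x (f n (γ n (locCoord i k)))
        rw [hv]
        exact isNorm_point (C n i) _)
      (fun n i => by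
        show x (f n (γ n (frobTrace D i))) = _
        let G : MvPowerSeries (LocVar ι X) 𝒪 →ₐ[𝒪] 𝒪 := x.comp ((f n).comp (γ n))
        have e : G (frobTrace D i) = ((D i).phiMat fun k => x (f n (γ n (locCoord i k)))).trace := by
          rw [frobTrace, Matrix.trace_fin_two, map_add, ← Matrix.map_apply (f := G),
            ← Matrix.map_apply (f := G), (D i).phiMat_map, ← Matrix.trace_fin_two]
          rfl
        refine e.trans ?_
        rw [hv, trace_phiMat_point hΔ p ψ (hxn n), hεtr, map_mul, map_add, map_intCast,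
          map_natCast, map_one, (hqs i).2.2.2])
      ⟨Finset.univ.sup K, fun n i => by
        obtain ⟨k, hk, hk'⟩ := hK i (R n) (hR n) (M n) _ (hxn n) (D i) (φ i) (C n i)
        refine ⟨k, hk, fun h => hk' (Ideal.pow_le_pow_right (Finset.le_sup (Finset.mem_univ i)) ?_)⟩
        rw [AlgHom.comp_apply, ← hγC]
        exact h⟩
      (fun n j => by
        obtain ⟨q, B, τ, hq, hqp, hB, hτ, e⟩ := hdia n j
        show x (f n (γ n (sys.dia n Finset.univ j))) = 2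
        rw [e]
        exact trace_point_inertia hΔ p ψ hss (hxn n) hq hqp hB hτ)
      (hφP a ha)
  obtain ⟨g, hg, hgc⟩ := exists_eigenform_of_point (N := N) hSN Θ (fun σ => (M₀ σ).trace) φP hΘ
    hΘT x hkills W.apOfModel fun ℓ hℓ _ hℓS B hB σ hσ =>
      trace_point_frobenius hΔ p ψ hx hℓ (hS ℓ hℓ hℓS).1 (hS ℓ hℓ hℓS).2 hB hσ
  exact isModularModelOfLevel_of_almost_all hΔ hg S fun ℓ hℓ hℓN hℓS => by
    rw [hgc ℓ hℓ hℓN hℓS]

end FLTAgent.RT.Tate
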