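import Fermat.Agent.RT.Sys.TraceGen

/-!
# The map to a smaller deformation ring

A deformation ring maps onto every deformation ring of the same residual representation whose
universal deformation satisfies its condition, carrying one universal matrix to a conjugate of the
other.
-/

set_option autoImplicit false
set_option linter.unusedSectionVars false

noncomputable section

open IsLocalRing FLTAgent.Deformation

namespace FLTAgent.RT.Tate

variable {𝒪 : Type} [CommRing 𝒪] [IsDomain 𝒪] [IsDiscreteValuationRing 𝒪]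
  [IsAdicComplete (maximalIdeal 𝒪) 𝒪] [Finite (ResidueField 𝒪)]
  {ρbar : ResidualGaloisRep (ResidueField 𝒪)}
  {𝒟 𝒟' : ∀ ⦃A : Type⦄ [CommRing A] [IsLocalRing A] [Algebra 𝒪 A], GaloisRepAdic A → Prop}

/-- **The map to a smaller deformation ring.** -/
theorem exists_mapToBase (h𝒟 : GaloisRep.IsDeformationCondition 𝒪 𝒟)
    (D' : GaloisRep.DeformationRingData 𝒪 ρbar 𝒟') (D : GaloisRep.DeformationRingData 𝒪 ρbar 𝒟)
    (hD : 𝒟' D.ρ) {M' : Gal →* Mat D'.R} {hM' : MatCont M'}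
    (he' : D'.ρ.IsEquiv (matRep M' hM')) {M : Gal →* Mat D.R} {hM : MatCont M}
    (he : D.ρ.IsEquiv (matRep M hM)) :
    ∃ f : D'.R →ₐ[𝒪] D.R, Function.Surjective f ∧
      (∀ σ, f (D'.ρ.trace σ) = D.ρ.trace σ) ∧
      ∃ w : (Mat D.R)ˣ, mapRep (f : D'.R →+* D.R) M' = conjRep w M := by
  have := D.instIsLocalHom
  obtain ⟨f, ⟨hf, hfe⟩, -⟩ := D'.universal D.R D.residue_surjective D.ρ hD D.residual_isEquiv
  have htr : ∀ σ, f (D'.ρ.trace σ) = D.ρ.trace σ := fun σ => by
    obtain ⟨e⟩ := hfe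
    have h1 : (f : D'.R →+* D.R) (D'.ρ.trace σ) =
        (D'.ρ.baseChangeAlong (f : D'.R →+* D.R) hf).trace σ :=
      (CommAlg.trace_baseChangeAlong _ _ _ _).symm
    refine h1.trans ?_
    have h2 : D.ρ.ρ σ =
        e.toLinearEquiv.conj ((D'.ρ.baseChangeAlong (f : D'.R →+* D.R) hf).ρ σ) :=
      LinearMap.ext fun x => by
        rw [LinearEquiv.conj_apply_apply, e.map_apply, LinearEquiv.apply_symm_apply]
    unfold GaloisRepAdic.trace
    rw [h2, LinearMap.trace_conj']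
  refine ⟨f, fun r => ?_, htr, ?_⟩
  · obtain ⟨n, t, c, γ, hγ, ht⟩ := Sys.exists_surjective_frobTraces h𝒟 D ∅
    have hlift : ∀ i, ∃ s : D'.R, s ∈ maximalIdeal D'.R ∧ f s = γ (MvPowerSeries.X i) := by
      intro i
      obtain ⟨⟨ℓ, -, -, A, -, σ, -, hσ⟩, hX⟩ := ht i
      refine ⟨D'.ρ.trace σ - algebraMap 𝒪 D'.R (c i), ?_, by
        rw [map_sub, AlgHom.commutes, htr, hX, hσ]⟩
      intro hu
      have h := hu.map (f : D'.R →+* D.R)
      change IsUnit (f _) at h
      rw [map_sub, AlgHom.commutes, htr, hσ, ← hX] at h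
      exact (IsLocalRing.mem_maximalIdeal _).mp ((isCoeff_powerSeries (𝒪 := 𝒪)).map_mem_maximalIdeal
        (isCoeff_deformationRing D) γ (span_X_le_maximalIdeal (Ideal.subset_span ⟨i, rfl⟩))) h
    choose s hs hfs using hlift
    obtain ⟨g, rfl⟩ := hγ r
    refine ⟨psEval s hs g, DFunLike.congr_fun
      (powerSeries_algHom_ext (f := f.comp (psEval s hs)) (g := γ) (fun i => ?_) fun i => ?_) g⟩
    · show f (psEval s hs (MvPowerSeries.X i)) = γ (MvPowerSeries.X i)
      rw [psEval_X, hfs]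
    · show f (psEval s hs (MvPowerSeries.X i)) ∈ maximalIdeal D.R
      rw [psEval_X, hfs]
      exact (isCoeff_powerSeries (𝒪 := 𝒪)).map_mem_maximalIdeal (isCoeff_deformationRing D) γ
        (span_X_le_maximalIdeal (Ideal.subset_span ⟨i, rfl⟩))
  · obtain ⟨e₁⟩ := baseChangeAlong_isEquiv_matRep (f : D'.R →+* D.R) hf he'
    obtain ⟨e₂⟩ := hfe
    obtain ⟨e₃⟩ := he
    exact (isEquiv_matRep_iff hM (hM'.map _ hf)).mp ⟨(e₂.trans e₃).symm.trans e₁⟩

end FLTAgent.RT.Tate
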