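import Fermat.Agent.Deformation.MatRep
import Fermat.Agent.Reduction.DecompositionMult
import Fermat.Agent.Reduction.Flat.Tate
import Fermat.Agent.Reduction.Peu.InertiaField

/-!
# The multiplicative line in the Tate module

At a place over a prime of multiplicative reduction the vectors all of whose images lie in `E₀`
form a direct summand, moved into itself by the decomposition group up to a sign.
-/

set_option autoImplicit false

noncomputable section

open Matrix WeierstrassCurve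
open scoped WeierstrassCurve.Affine

namespace FLTAgent.RT.Tate

open FLTAgent.Tate FLTAgent.Reduction FLTAgent.Reduction.Flat

local notation "Qb" => AlgebraicClosure ℚ
local notation "Γℚ" => AlgebraicClosure ℚ ≃ₐ[ℚ] AlgebraicClosure ℚ

variable {W : WeierstrassCurve ℤ} (hΔ : W.Δ ≠ 0) (p : ℕ) [hp : Fact p.Prime]
  {A : ValuationSubring Qb}

/-- The point of order dividing `p ^ n` given by a vector of the Tate module. -/
def tatePt (n : ℕ) : (Fin 2 → ℤ_[p]) →+ (WQbar W).toAffine.Point :=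
  (lev W p n).subtype.toAddMonoidHom.comp (toLev hΔ p n)

theorem pow_smul_tatePt (n : ℕ) (v : Fin 2 → ℤ_[p]) : p ^ n • tatePt hΔ p n v = 0 := by
  rw [← natCast_zsmul]
  exact (Submodule.mem_torsionBy_iff _ _).mp (toLev hΔ p n v).2

theorem tatePt_mulVec (n : ℕ) (σ : Γℚ) (v : Fin 2 → ℤ_[p]) :
    tatePt hΔ p n (tateMat hΔ p σ *ᵥ v) = σ • tatePt hΔ p n v :=
  congrArg Subtype.val (toLev_mulVec hΔ p n σ v)

theorem tatePt_smul (n : ℕ) (c : ℤ_[p]) (v : Fin 2 → ℤ_[p]) :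
    tatePt hΔ p n (c • v) = (PadicInt.toZModPow n c).val • tatePt hΔ p n v := by
  have h : (fun i => PadicInt.toZModPow n ((c • v) i)) =
      PadicInt.toZModPow n c • fun i => PadicInt.toZModPow n (v i) :=
    funext fun i => map_mul (PadicInt.toZModPow n) c (v i)
  show (((levBasis hΔ p n).equivFun.symm fun i => PadicInt.toZModPow n ((c • v) i) : lev W p n) :
    Pt W) = _
  rw [h, LinearEquiv.map_smul, coe_zmod_smul]
  rfl

theorem tatePt_eq (n : ℕ) (v : Fin 2 → ℤ_[p]) :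
    tatePt hΔ p n v = ∑ i, (PadicInt.toZModPow n (v i)).val • (vec hΔ p n i : Pt W) := by
  show (((levBasis hΔ p n).equivFun.symm fun i => PadicInt.toZModPow n (v i) : lev W p n) : Pt W) = _
  rw [Module.Basis.equivFun_symm_apply, AddSubmonoidClass.coe_finsetSum]
  refine Finset.sum_congr rfl fun i _ => ?_
  rw [coe_zmod_smul, levBasis_apply]

theorem smul_tatePt_succ (n : ℕ) (v : Fin 2 → ℤ_[p]) :
    p • tatePt hΔ p (n + 1) v = tatePt hΔ p n v := by
  rw [tatePt_eq, tatePt_eq, Finset.smul_sum]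
  refine Finset.sum_congr rfl fun i _ => ?_
  rw [smul_comm, smul_coe_vec_succ, ← coe_zmod_smul p n _ (vec hΔ p n i)]
  have h : ((PadicInt.toZModPow (n + 1) (v i)).val : ZMod (p ^ n)) = PadicInt.toZModPow n (v i) := by
    rw [← PadicInt.cast_toZModPow n (n + 1) n.le_succ (v i), ZMod.natCast_val]
  rw [← h, Nat.cast_smul_eq_nsmul]
  rfl

theorem tatePt_one_surjective {P : (WQbar W).toAffine.Point} (hP : p • P = 0) :
    ∃ v, tatePt hΔ p 1 v = P := by
  have hmem : P ∈ lev W p 1 := by rw [Submodule.mem_torsionBy_iff, natCast_zsmul, pow_one]; exact hP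
  choose v hv using fun i =>
    ZMod.ringHom_surjective (PadicInt.toZModPow 1) ((levBasis hΔ p 1).equivFun ⟨P, hmem⟩ i)
  refine ⟨v, ?_⟩
  show (((levBasis hΔ p 1).equivFun.symm fun i => PadicInt.toZModPow 1 (v i) : lev W p 1) : Pt W) = _
  rw [funext hv, LinearEquiv.symm_apply_apply]

variable (A) in
/-- The vectors all of whose images lie in `E₀`. -/
def lineZero : Submodule ℤ_[p] (Fin 2 → ℤ_[p]) where
  carrier := {v | ∀ n, tatePt hΔ p n v ∈ zeroSubgroup (integralAt W A)}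
  add_mem' ha hb n := by rw [map_add]; exact add_mem (ha n) (hb n)
  zero_mem' n := by rw [map_zero]; exact zero_mem (zeroSubgroup (integralAt W A))
  smul_mem' c v hv n := by rw [tatePt_smul]; exact AddSubgroup.nsmul_mem _ (hv n) _

theorem mem_lineZero {v : Fin 2 → ℤ_[p]} :
    v ∈ lineZero hΔ p A ↔ ∀ n, tatePt hΔ p n v ∈ zeroSubgroup (integralAt W A) := Iff.rfl

theorem mem_lineZero_of_natCast_smul {v : Fin 2 → ℤ_[p]} (h : (p : ℤ_[p]) • v ∈ lineZero hΔ p A) :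
    v ∈ lineZero hΔ p A := fun n => by
  have h1 := h (n + 1)
  rwa [show (p : ℤ_[p]) • v = p • v from Nat.cast_smul_eq_nsmul _ _ _, map_nsmul,
    smul_tatePt_succ] at h1

theorem mem_lineZero_of_smul {c : ℤ_[p]} (hc : c ≠ 0) {v : Fin 2 → ℤ_[p]}
    (h : c • v ∈ lineZero hΔ p A) : v ∈ lineZero hΔ p A := by
  have key : ∀ k, ((p : ℤ_[p]) ^ k) • v ∈ lineZero hΔ p A → v ∈ lineZero hΔ p A := by
    intro k
    induction k with
    | zero => simp
    | succ k ih => exact fun h => ih (mem_lineZero_of_natCast_smul hΔ p (by rwa [smul_smul, ← pow_succ']))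
  refine key c.valuation ?_
  rw [PadicInt.unitCoeff_spec hc, mul_smul] at h
  have := (lineZero hΔ p A).smul_mem (↑(PadicInt.unitCoeff hc)⁻¹ : ℤ_[p]) h
  rwa [smul_smul, Units.inv_mul, one_smul] at this

theorem sub_sign_smul_mem {σ : Γℚ} {z : ℤ}
    (h : ∀ P : (WQbar W).toAffine.Point, σ • P - z • P ∈ zeroSubgroup (integralAt W A))
    (v : Fin 2 → ℤ_[p]) : tateMat hΔ p σ *ᵥ v - (z : ℤ_[p]) • v ∈ lineZero hΔ p A := fun n => by
  rw [map_sub, tatePt_mulVec, show (z : ℤ_[p]) • v = z • v from Int.cast_smul_eq_zsmul _ _ _,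
    map_zsmul]
  exact h _

/-- A place over a multiplicative prime moves some vector, if the determinant does. -/
theorem exists_ne_zero_mem_lineZero {q : ℕ} (hA : A.LiesOverPrime q) (hq : q.Prime)
    (hbad : (q : ℤ) ∣ W.Δ) (hc₄ : ¬(q : ℤ) ∣ W.c₄) {σ : Γℚ} (hσ : σ ∈ A.inertiaSubgroupIn ℚ)
    (hne : tateMat hΔ p σ ≠ 1) : lineZero hΔ p A ≠ ⊥ := by
  intro hbot
  refine hne (Matrix.mulVec_injective ?_)
  funext v
  have h := sub_sign_smul_mem hΔ p (z := 1)
    (fun P => by rw [one_zsmul]; exact smul_sub_mem_zeroSubgroup hA hq hΔ hbad hc₄ hσ P) v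
  rw [hbot, Submodule.mem_bot, Int.cast_one, one_smul, sub_eq_zero] at h
  rw [Matrix.one_mulVec]
  exact h

/-- A basis whose first vector spans the line. -/
theorem exists_basis_lineZero {q : ℕ} (hA : A.LiesOverPrime q) (hq : q.Prime) (hp2 : p ≠ 2)
    (hbad : (q : ℤ) ∣ W.Δ) (hc₄ : ¬(q : ℤ) ∣ W.c₄) (hne : lineZero hΔ p A ≠ ⊥) :
    ∃ g : (Matrix (Fin 2) (Fin 2) ℤ_[p])ˣ, ∀ v : Fin 2 → ℤ_[p],
      v ∈ lineZero hΔ p A ↔ ((g : Matrix (Fin 2) (Fin 2) ℤ_[p]) *ᵥ v) 1 = 0 := by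
  obtain ⟨P, hP, hP0⟩ :=
    exists_torsion_not_mem_zeroSubgroup_qbar hA hq hp.out hp2 hΔ hbad hc₄
  obtain ⟨v₀, rfl⟩ := tatePt_one_surjective hΔ p hP
  obtain ⟨v, hv, hv0⟩ := (Submodule.ne_bot_iff _).mp hne
  obtain ⟨a, w, i, ha, rfl, hwi⟩ := FLTAgent.GalRep.exists_primitive hv0
  have hw : w ∈ lineZero hΔ p A := mem_lineZero_of_smul hΔ p ha hv
  let M : Matrix (Fin 2) (Fin 2) ℤ_[p] := !![w 0, v₀ 0; w 1, v₀ 1]
  have hdet : IsUnit M.det := by
    by_contra hu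
    have hmem : M.det ∈ IsLocalRing.maximalIdeal ℤ_[p] := hu
    rw [PadicInt.maximalIdeal_eq_span_p, Ideal.mem_span_singleton] at hmem
    obtain ⟨d, hd⟩ := hmem
    rw [Matrix.det_fin_two_of] at hd
    apply hP0
    obtain ⟨e, u, hu'⟩ : ∃ (e : ℤ_[p]) (u : Fin 2 → ℤ_[p]), v₀ = e • w + (p : ℤ_[p]) • u := by
      fin_cases i
      · refine ⟨v₀ 0, ![0, d], funext fun j => ?_⟩
        fin_cases j
        · simp [show w 0 = 1 from hwi]
        · simp only [Fin.zero_eta] at hwi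
          simp [Matrix.cons_val_one]
          linear_combination hd - (v₀ 1) * hwi
      · refine ⟨v₀ 1, ![-d, 0], funext fun j => ?_⟩
        fin_cases j
        · simp only [Fin.mk_one] at hwi
          simp [Matrix.cons_val_zero]
          linear_combination -hd - (v₀ 0) * hwi
        · simp [show w 1 = 1 from hwi]
    rw [hu', map_add, show (p : ℤ_[p]) • u = p • u from Nat.cast_smul_eq_nsmul _ _ _, map_nsmul]
    have h0 : p • tatePt hΔ p 1 u = 0 := by simpa using pow_smul_tatePt hΔ p 1 u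
    rw [h0, add_zero]
    exact (lineZero hΔ p A).smul_mem e hw 1
  have hMu : IsUnit M := (Matrix.isUnit_iff_isUnit_det M).mpr hdet
  refine ⟨hMu.unit⁻¹, fun x => ?_⟩
  set g : Matrix (Fin 2) (Fin 2) ℤ_[p] := ↑hMu.unit⁻¹ with hg
  have hx : x = (g *ᵥ x) 0 • w + (g *ᵥ x) 1 • v₀ := by
    have h : M *ᵥ (g *ᵥ x) = x := by
      rw [Matrix.mulVec_mulVec, hg, show M * ↑hMu.unit⁻¹ = (↑hMu.unit * ↑hMu.unit⁻¹ :
        Matrix (Fin 2) (Fin 2) ℤ_[p]) from rfl, Units.mul_inv, Matrix.one_mulVec]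
    conv_lhs => rw [← h]
    funext j
    fin_cases j <;> simp [M, Matrix.mulVec, dotProduct, Fin.sum_univ_two] <;> ring
  refine ⟨fun hxL => ?_, fun h1 => ?_⟩
  · by_contra h1
    refine hP0 (mem_lineZero_of_smul hΔ p h1 (v := v₀) ?_ 1)
    rw [show (g *ᵥ x) 1 • v₀ = x - (g *ᵥ x) 0 • w from eq_sub_of_add_eq' hx.symm]
    exact sub_mem hxL ((lineZero hΔ p A).smul_mem _ hw)
  · rw [hx, h1, zero_smul, add_zero]
    exact (lineZero hΔ p A).smul_mem _ hw

/-- In such a basis an element moving vectors into the line up to a sign is upper triangular. -/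
theorem shape_of_sub_mem {g : (Matrix (Fin 2) (Fin 2) ℤ_[p])ˣ}
    (hg : ∀ v, v ∈ lineZero hΔ p A ↔ ((g : Matrix (Fin 2) (Fin 2) ℤ_[p]) *ᵥ v) 1 = 0)
    {σ : Γℚ} {z : ℤ_[p]} (h : ∀ v, tateMat hΔ p σ *ᵥ v - z • v ∈ lineZero hΔ p A) :
    (Deformation.conjRep g (tateMat hΔ p) σ) 1 0 = 0 ∧
      (Deformation.conjRep g (tateMat hΔ p) σ) 1 1 = z := by
  have key : ∀ j, (Deformation.conjRep g (tateMat hΔ p) σ) 1 j =
      z * (1 : Matrix (Fin 2) (Fin 2) ℤ_[p]) 1 j := fun j => by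
    set e : Fin 2 → ℤ_[p] := (↑g⁻¹ : Matrix (Fin 2) (Fin 2) ℤ_[p]) *ᵥ Pi.single j 1 with he
    have h1 := (hg _).mp (h e)
    rw [Matrix.mulVec_sub, Matrix.mulVec_smul, Pi.sub_apply, Pi.smul_apply, smul_eq_mul,
      sub_eq_zero, he, Matrix.mulVec_mulVec, Matrix.mulVec_mulVec, Matrix.mulVec_mulVec,
      Units.mul_inv, Matrix.mulVec_single_one, Matrix.mulVec_single_one,
      Matrix.col_apply, Matrix.col_apply] at h1
    rw [Deformation.conjRep_apply]
    exact h1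
  exact ⟨by simpa using key 0, by simpa using key 1⟩

/-- **Strict ordinary shape at a multiplicative `p`.** -/
theorem exists_strictShape_tateMat (hp2 : p ≠ 2) (hbad : (p : ℤ) ∣ W.Δ) (hc₄ : ¬(p : ℤ) ∣ W.c₄)
    (hA : A.LiesOverPrime p) {σ₀ : Γℚ} (hσ₀ : σ₀ ∈ A.inertiaSubgroupIn ℚ)
    (hχ : GalRep.cyclo p σ₀ ≠ 1) :
    ∃ g : (Matrix (Fin 2) (Fin 2) ℤ_[p])ˣ,
      (∀ σ ∈ A.decompositionSubgroup ℚ,
        (Deformation.conjRep g (tateMat hΔ p) σ) 1 0 = 0 ∧
        (Deformation.conjRep g (tateMat hΔ p) σ) 0 0 =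
          (GalRep.cyclo p σ : ℤ_[p]) * (Deformation.conjRep g (tateMat hΔ p) σ) 1 1) ∧
      ∀ σ ∈ A.inertiaSubgroupIn ℚ,
        (Deformation.conjRep g (tateMat hΔ p) σ) 1 0 = 0 ∧
        (Deformation.conjRep g (tateMat hΔ p) σ) 1 1 = 1 := by
  have hne : tateMat hΔ p σ₀ ≠ 1 := fun h => hχ (Units.ext (by
    rw [← det_tateMat hΔ p σ₀, h, Matrix.det_one, Units.val_one]))
  obtain ⟨g, hg⟩ := exists_basis_lineZero hΔ p hA hp.out hp2 hbad hc₄
    (exists_ne_zero_mem_lineZero hΔ p hA hp.out hbad hc₄ hσ₀ hne)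
  refine ⟨g, fun σ hσ => ?_, fun σ hσ => ?_⟩
  · obtain ⟨z, hz, -, hmem⟩ := exists_smul_sub_zsmul_mem_zeroSubgroup hA hp.out hΔ hbad hc₄ hσ
    obtain ⟨h10, h11⟩ := shape_of_sub_mem hΔ p hg (sub_sign_smul_mem hΔ p hmem)
    refine ⟨h10, ?_⟩
    set X := Deformation.conjRep g (tateMat hΔ p) σ with hX
    have hdet : X 0 0 * X 1 1 = (GalRep.cyclo p σ : ℤ_[p]) := by
      rw [← det_tateMat hΔ p σ, ← Matrix.det_units_conj g (tateMat hΔ p σ), ← Deformation.conjRep_apply, ← hX,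
        Matrix.det_fin_two, h10, mul_zero, sub_zero]
    have hsq : (z : ℤ_[p]) * z = 1 := by rcases hz with rfl | rfl <;> simp
    rw [← hdet, h11, mul_assoc, hsq, mul_one]
  · obtain ⟨h10, h11⟩ := shape_of_sub_mem hΔ p hg (sub_sign_smul_mem hΔ p (z := 1) fun P => by
      rw [one_zsmul]; exact smul_sub_mem_zeroSubgroup hA hp.out hΔ hbad hc₄ hσ P)
    exact ⟨h10, by simpa using h11⟩

/-- A point fixed by inertia at a multiplicative place is killed in `E/E₀` by twice `v_q(Δ)`. -/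
theorem two_mul_smul_mem_zeroSubgroup {q : ℕ} (hA : A.LiesOverPrime q) (hq : q.Prime)
    (hΔ0 : W.Δ ≠ 0) (hbad : (q : ℤ) ∣ W.Δ) (hc₄ : ¬(q : ℤ) ∣ W.c₄) {P : (WQbar W).toAffine.Point}
    (hfix : ∀ σ ∈ A.inertiaSubgroupIn ℚ, σ • P = P) :
    (2 * padicValInt q W.Δ) • P ∈ zeroSubgroup (integralAt W A) := by
  obtain ⟨x₀, y₀, α, r, hn, h⟩ := exists_nodal hA hq hΔ0 hbad hc₄
  set n := padicValInt q W.Δ
  have hN : A.valuation r ^ 2 = A.valuation (q : Qb) ^ n := by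
    rw [← h.v_Δ, variableChange_Δ, WQbar_Δ, nodeChange, inv_one, Units.val_one, one_pow, one_mul,
      v_intCast_eq_pow hA hq hΔ0]
  refine (hn.inZero_vc_iff (integralAt W A) h.integral _).1 (h.comp_eq_one_iff.1 ?_)
  rw [map_nsmul, comp_nsmul]
  rcases P with _ | ⟨x, y, hxy⟩
  · exact one_pow _
  rw [vcEquiv_some, h.comp_some]
  simp only [vcX_node, vcY_node]
  have hn₁ : (nodeChange x₀ y₀ • WQbar W).toAffine.Nonsingular (x - x₀) (y - y₀) := by
    simpa only [vcX_node, vcY_node] using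
      (nonsingular_vc (nodeChange x₀ y₀) (WQbar W) x y).2 hxy
  rcases le_or_gt 1 (A.valuation (x - x₀)) with h1 | hx1
  · rw [h.compCoord_out _ h1, one_pow]
  rcases le_or_gt (A.valuation (x - x₀)) (A.valuation r) with hM | hS
  · rw [h.compCoord_middle _ hM, pow_mul, pow_two, ← h.cls_mul h.rUnit_ne_zero h.rUnit_ne_zero,
      ← pow_two, h.cls_sq_r, one_pow]
  have hv0 : A.valuation (x - x₀) ≠ 0 := (lt_trans h.r_pos hS).ne'
  have hfx : ∀ σ ∈ A.inertiaSubgroupIn ℚ, σ (x - x₀) = x - x₀ := fun σ hσ => by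
    rw [map_sub, (node_fixed hn hσ).1,
      (Affine.Point.some.inj ((smul_some hxy).symm.trans (hfix σ hσ))).1]
  obtain ⟨k, hk⟩ := Peu.valuation_eq_zpow_of_fixed hq hA ((map_ne_zero A.valuation).1 hv0) hfx
  have hcls : h.cls (A.valuation (x - x₀)) ^ (2 * n) = 1 := by
    rw [h.cls_mk0 hv0, ← QuotientGroup.mk_pow, QuotientGroup.eq_one_iff, Subgroup.mem_zpowers_iff]
    refine ⟨2 * k, Units.ext ?_⟩
    simp only [IsNodalForm.period, Units.val_zpow_eq_zpow_val, Units.val_pow_eq_pow_val,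
      Units.val_mk0]
    rw [hN, hk, ← zpow_natCast, ← zpow_natCast _ (2 * n), ← _root_.zpow_mul, ← _root_.zpow_mul]
    congr 1
    push_cast
    ring
  rcases h.branch hn₁.1 hS hx1 with hb | hb
  · rw [h.compCoord_first hS hx1 hb.1, hcls]
  · rw [h.compCoord_second hn₁.1 hS hx1 hb.1, inv_pow, hcls, inv_one]

/-- **The Tate module is ramified at a multiplicative place.** -/
theorem exists_inertia_tateMat_ne_one {q : ℕ} (hA : A.LiesOverPrime q) (hq : q.Prime) (hp2 : p ≠ 2)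
    (hbad : (q : ℤ) ∣ W.Δ) (hc₄ : ¬(q : ℤ) ∣ W.c₄) :
    ∃ σ ∈ A.inertiaSubgroupIn ℚ, tateMat hΔ p σ ≠ 1 := by
  by_contra hc
  push Not at hc
  obtain ⟨P, hP, hP0⟩ :=
    exists_torsion_not_mem_zeroSubgroup_qbar hA hq hp.out hp2 hΔ hbad hc₄
  obtain ⟨v, rfl⟩ := tatePt_one_surjective hΔ p hP
  have : Fact q.Prime := ⟨hq⟩
  set k := 2 * padicValInt q W.Δ with hk
  have hk0 : k ≠ 0 := by
    refine mul_ne_zero two_ne_zero ?_
    intro h0
    exact absurd ((padicValInt.eq_zero_iff).mp h0) (by simp [hq.ne_one, hΔ, hbad])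
  have htop : ∀ n, k • tatePt hΔ p n v ∈ zeroSubgroup (integralAt W A) := fun n => by
    refine two_mul_smul_mem_zeroSubgroup hA hq hΔ hbad hc₄ fun σ hσ => ?_
    rw [← tatePt_mulVec, hc σ hσ, Matrix.one_mulVec]
  -- the multiplicity of `p` in `k` is too small
  have hkv : (k : ℤ_[p]) • v ∈ lineZero hΔ p A := fun n => by
    rw [Nat.cast_smul_eq_nsmul, map_nsmul]; exact htop n
  exact hP0 (mem_lineZero_of_smul hΔ p (Nat.cast_ne_zero.mpr hk0) hkv 1)

end FLTAgent.RT.Tate
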