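import Fermat.Agent.RT.Tate.Line
import Fermat.Agent.RT.Cond.Main
import Fermat.Agent.RT.Irr.Local
import Fermat.Agent.Deformation.Residual
import Fermat.Agent.Deformation.Limit

/-!
# The Tate module over the coefficient ring

With cyclotomic determinant it is flat at a good `p`, strictly ordinary at a multiplicative `p`,
and it reduces to `E[p]`.
-/

set_option autoImplicit false
set_option linter.unusedSectionVars false

noncomputable section

open IsLocalRing Matrix WeierstrassCurve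
open scoped WeierstrassCurve.Affine

namespace FLTAgent.RT.Tate

open FLTAgent.Deformation FLTAgent.Tate FLTAgent.RTCond FLTAgent.Reduction

local notation "Qb" => AlgebraicClosure ℚ

variable {W : WeierstrassCurve ℤ} (hΔ : W.Δ ≠ 0) (p : ℕ) [hp : Fact p.Prime]
  {𝒪 : Type} [CommRing 𝒪] [IsLocalRing 𝒪] (ψ : ℤ_[p] →+* 𝒪)

/-- The matrices of the Tate module over `𝒪`. -/
def tateO : Gal →* Mat 𝒪 := mapRep ψ (tateMat hΔ p)

theorem matCont_tateMat : MatCont (tateMat hΔ p) := fun n => by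
  obtain ⟨L, hL, h⟩ := exists_field_tateMat hΔ p n
  exact ⟨L, hL, fun σ hσ i j => h σ hσ i j⟩

variable (hpO : (p : 𝒪) ∈ maximalIdeal 𝒪)

include hpO in
theorem isLocalHom_psi : IsLocalHom ψ := ⟨fun a ha => by
  by_contra hu
  have hmem : a ∈ maximalIdeal ℤ_[p] := hu
  rw [PadicInt.maximalIdeal_eq_span_p, Ideal.mem_span_singleton] at hmem
  obtain ⟨b, rfl⟩ := hmem
  rw [map_mul, map_natCast] at ha
  exact (IsLocalRing.mem_maximalIdeal _).mp hpO (isUnit_of_mul_isUnit_left ha)⟩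

include hpO in
theorem matCont_tateO : MatCont (tateO hΔ p ψ) :=
  (matCont_tateMat hΔ p).map ψ (isLocalHom_psi p ψ hpO)

theorem det_tateO (σ : Gal) : (tateO hΔ p ψ σ).det = detChar ψ σ := by
  rw [tateO, mapRep_apply, detChar, ← det_tateMat hΔ p σ, RingHom.map_det]
  rfl

theorem det_conjRep (g : (Mat 𝒪)ˣ) (N : Gal →* Mat 𝒪) (σ : Gal) :
    (conjRep g N σ).det = (N σ).det := by
  rw [conjRep_apply, Matrix.det_units_conj]

theorem det_matRep (N : Gal →* Mat 𝒪) (hN : MatCont N) (σ : Gal) :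
    LinearMap.det ((matRep N hN).ρ σ) = (N σ).det := by
  exact (LinearMap.det_toMatrix (M := (matRep N hN).V) (Pi.basisFun 𝒪 (Fin 2)) _).symm.trans
    (congrArg Matrix.det (DFunLike.congr_fun (repMatrix_matRep N hN) σ))

/-- An inertia element at `q ≠ p` fixes the Tate module at a good prime. -/
theorem tateMat_inertia_of_good {q : ℕ} (hq : q.Prime) (hgood : W.IsGoodPrimeFor q) (hqp : q ≠ p)
    {A : ValuationSubring Qb} (hA : A.LiesOverPrime q) {σ : Gal}
    (hσ : σ ∈ A.inertiaSubgroupIn ℚ) : tateMat hΔ p σ = 1 :=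
  Matrix.toLinAlgEquiv'.injective
    ((isUnramifiedAt_of_good hΔ p hq hgood hqp A hA σ hσ).trans (map_one _).symm)

variable {g : (Mat 𝒪)ˣ}

theorem conj_tateO_inertia_of_good {q : ℕ} (hq : q.Prime) (hgood : W.IsGoodPrimeFor q) (hqp : q ≠ p)
    {A : ValuationSubring Qb} (hA : A.LiesOverPrime q) {σ : Gal}
    (hσ : σ ∈ A.inertiaSubgroupIn ℚ) : conjRep g (tateO hΔ p ψ) σ = 1 := by
  rw [conjRep_apply, tateO, mapRep_apply, tateMat_inertia_of_good hΔ p hq hgood hqp hA hσ,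
    Matrix.map_one ψ (map_zero ψ) (map_one ψ), mul_one, Units.mul_inv]

theorem trace_det_conj_tateO_inertia (hss : W.IsSemistableModel) {q : ℕ} (hq : q.Prime)
    (hqp : q ≠ p) {A : ValuationSubring Qb} (hA : A.LiesOverPrime q) {σ : Gal}
    (hσ : σ ∈ A.inertiaSubgroupIn ℚ) :
    (conjRep g (tateO hΔ p ψ) σ).trace = 2 ∧ (conjRep g (tateO hΔ p ψ) σ).det = 1 := by
  have h := isUnipotentOnInertiaAt hΔ p hss hq hqp A hA σ hσ
  rw [charpoly_tateRep] at h
  have h0 := congrArg (fun f => Polynomial.coeff f 0) h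
  have h1 := congrArg (fun f => Polynomial.coeff f 1) h
  simp [sq, sub_mul, mul_sub, Polynomial.coeff_one, Polynomial.coeff_X] at h0 h1
  have ht : (tateMat hΔ p σ).trace = 2 := by linear_combination -h1
  rw [conjRep_apply, Matrix.trace_units_conj, Matrix.det_units_conj, tateO, mapRep_apply]
  refine ⟨?_, ?_⟩
  · rw [Matrix.trace_fin_two, Matrix.map_apply, Matrix.map_apply, ← map_add, ← Matrix.trace_fin_two,
      ht, map_ofNat]
  · rw [show ((tateMat hΔ p σ).map ψ).det = ψ (tateMat hΔ p σ).det from (RingHom.map_det ψ _).symm,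
      h0, map_one]

variable [IsNoetherianRing 𝒪] [IsAdicComplete (maximalIdeal 𝒪) 𝒪]

theorem isCoeff_self : IsCoeff 𝒪 𝒪 :=
  ⟨⟨fun _ h => h⟩, IsLocalRing.residue_surjective⟩

include hpO in
theorem detIsCyclotomic_matRep {hN : MatCont (conjRep g (tateO hΔ p ψ))} :
    (matRep (conjRep g (tateO hΔ p ψ)) hN).DetIsCyclotomic p := by
  refine ⟨hpO, fun n σ a ha => ?_⟩
  rw [det_matRep, det_conjRep, det_tateO]
  obtain ⟨ζ, hζ⟩ := HasEnoughRootsOfUnity.exists_primitiveRoot Qb (p ^ n)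
  have h := algebraMap_padic_sub_natCast_mem (𝒪 := 𝒪) (A := 𝒪) ψ
    (FLTAgent.GalRep.toZModPow_cyclo_eq_natCast p σ hζ (ha ζ hζ.pow_eq_one))
  simpa [detChar] using h

include hpO in
theorem isUnramified_and_unipotent {hN : MatCont (conjRep g (tateO hΔ p ψ))}
    (hss : W.IsSemistableModel) (S T : Finset ℕ)
    (hS : ∀ q : ℕ, q.Prime → q ∉ S → W.IsGoodPrimeFor q ∧ q ≠ p) :
    (∀ q : ℕ, q.Prime → q ∉ S → (matRep (conjRep g (tateO hΔ p ψ)) hN).IsUnramifiedAt q) ∧
      ∀ q ∈ T, q.Prime → q ≠ p →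
        (matRep (conjRep g (tateO hΔ p ψ)) hN).IsUnipotentOnInertiaAt q := by
  refine ⟨fun q hq hqS A hA σ hσ => LinearMap.ext fun v => ?_, fun q _ hq hqp A hA σ hσ => ?_⟩
  · refine (matRep_apply _ hN σ v).trans ?_
    rw [conj_tateO_inertia_of_good hΔ p ψ hq (hS q hq hqS).1 (hS q hq hqS).2 hA hσ]
    exact Matrix.one_mulVec _
  · obtain ⟨ht, hd⟩ := trace_det_conj_tateO_inertia hΔ p ψ (g := g) hss hq hqp hA hσ
    show LinearMap.charpoly (Matrix.toLinAlgEquiv' (conjRep g (tateO hΔ p ψ) σ)) = _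
    rw [← LinearMap.charpoly_toMatrix _ (Pi.basisFun 𝒪 (Fin 2)),
      show Matrix.toLinAlgEquiv' (conjRep g (tateO hΔ p ψ) σ) =
        Matrix.toLin' (conjRep g (tateO hΔ p ψ) σ) from rfl,
      LinearMap.toMatrix_eq_toMatrix', LinearMap.toMatrix'_toLin',
      Matrix.charpoly_fin_two, ht, hd]
    simp only [map_ofNat, map_one]
    ring

include hpO in
theorem isStrictOrdinaryAt_matRep {hN : MatCont (conjRep g (tateO hΔ p ψ))} (hp2 : p ≠ 2)
    (hbad : (p : ℤ) ∣ W.Δ) (hc₄ : ¬(p : ℤ) ∣ W.c₄) :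
    (matRep (conjRep g (tateO hΔ p ψ)) hN).IsStrictOrdinaryAt p := by
  refine ⟨hpO, fun P hP => (exists_shape_iff ψ hpO isCoeff_self _ P).mpr ?_⟩
  obtain ⟨σ₀, hσ₀, hu⟩ := exists_inertia_cyclo_ne_one hp2 hP
  obtain ⟨G, hD, hI⟩ := exists_strictShape_tateMat hΔ p hp2 hbad hc₄ hP hσ₀ fun h => by
    rw [h, Units.val_one, sub_self] at hu
    exact not_isUnit_zero hu
  let Gψ : (Mat 𝒪)ˣ := Units.map (RingHom.mapMatrix (m := Fin 2) ψ).toMonoidHom G
  have hN' : MatCont (conjRep Gψ (tateO hΔ p ψ)) := (matCont_tateO hΔ p ψ hpO).conj Gψ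
  obtain ⟨e⟩ := (isEquiv_matRep_iff hN hN').mpr
    ⟨Gψ * g⁻¹, by rw [conjRep_conjRep, mul_assoc, inv_mul_cancel, mul_one]⟩
  let f : (matRep (conjRep g (tateO hΔ p ψ)) hN).V ≃ₗ[𝒪] (Fin 2 → 𝒪) := e.toLinearEquiv
  have hf : ∀ σ x, f ((matRep (conjRep g (tateO hΔ p ψ)) hN).ρ σ x) =
      Matrix.mulVec (conjRep Gψ (tateO hΔ p ψ) σ) (f x) := e.map_apply
  have hb : repMatrix (matRep (conjRep g (tateO hΔ p ψ)) hN).ρ (Module.Basis.ofEquivFun f) =
      conjRep Gψ (tateO hΔ p ψ) := by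
    refine MonoidHom.ext fun σ => ?_
    ext i j
    rw [repMatrix_apply, LinearMap.toMatrix_apply, Module.Basis.ofEquivFun_repr_apply, hf,
      Module.Basis.coe_ofEquivFun, LinearEquiv.apply_symm_apply, Matrix.mulVec_single_one,
      Matrix.col_apply]
  refine ⟨Module.Basis.ofEquivFun f, ?_⟩
  rw [hb]
  refine ⟨fun σ hσ => ?_, fun σ hσ => ?_⟩
  · obtain ⟨h1, h2⟩ := hD σ hσ
    rw [tateO, ← mapRep_conjRep, mapRep_apply, Matrix.map_apply, Matrix.map_apply, Matrix.map_apply,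
      h1, h2, map_mul, map_zero, Algebra.algebraMap_self_apply]
    exact ⟨rfl, rfl⟩
  · obtain ⟨h1, h2⟩ := hI σ hσ
    rw [tateO, ← mapRep_conjRep, mapRep_apply, Matrix.map_apply, Matrix.map_apply, h1, h2,
      map_zero, map_one]
    exact ⟨rfl, rfl⟩

include hpO in
theorem isFlatAt_matRep [Finite (ResidueField 𝒪)] {hN : MatCont (conjRep g (tateO hΔ p ψ))}
    (hgood : W.IsGoodPrimeFor p) :
    (matRep (conjRep g (tateO hΔ p ψ)) hN).IsFlatAt p := by
  have hZ : (matRep (tateMat hΔ p) (matCont_tateMat hΔ p)).IsFlatAt p :=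
    RTCond.isFlatAt_congr ⟨⟨LinearEquiv.refl _ _, fun _ _ => rfl⟩⟩
      (Flat.isFlatAt_tateRep hΔ p hgood)
  refine RTCond.isFlatAt_congr ((isEquiv_matRep_iff (matCont_tateO hΔ p ψ hpO) hN).mpr ⟨g, rfl⟩) ?_
  refine ((isDeformationCondition_flatAt 𝒪 p).iff_forall_surjective isCoeff_self.isLocalHom
    isCoeff_self.residue_surjective _).mpr fun B _ _ _ hB q hq _ => ?_
  have := hB.finite
  refine RTCond.isFlatAt_congr (Deformation.isEquiv_symm
    (matRep_baseChangeAlong (q : 𝒪 →+* B) hq (tateO hΔ p ψ) (matCont_tateO hΔ p ψ hpO))) ?_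
  exact RTCond.isFlatAt_matRep_map ((q : 𝒪 →+* B).comp ψ) (matCont_tateMat hΔ p) hZ

include hpO in
theorem flatProblem_matRep [Finite (ResidueField 𝒪)] {hN : MatCont (conjRep g (tateO hΔ p ψ))}
    (hss : W.IsSemistableModel) (hgood : W.IsGoodPrimeFor p) (S T : Finset ℕ)
    (hS : ∀ q : ℕ, q.Prime → q ∉ S → W.IsGoodPrimeFor q ∧ q ≠ p) :
    flatProblem 𝒪 p S T (matRep (conjRep g (tateO hΔ p ψ)) hN) :=
  ⟨⟨detIsCyclotomic_matRep hΔ p ψ hpO, isFlatAt_matRep hΔ p ψ hpO hgood,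
    (isUnramified_and_unipotent hΔ p ψ hpO hss S T hS).1⟩,
    (isUnramified_and_unipotent hΔ p ψ hpO hss S T hS).2⟩

include hpO in
theorem strictProblem_matRep {hN : MatCont (conjRep g (tateO hΔ p ψ))} (hss : W.IsSemistableModel)
    (hp2 : p ≠ 2) (hbad : (p : ℤ) ∣ W.Δ) (S T : Finset ℕ)
    (hS : ∀ q : ℕ, q.Prime → q ∉ S → W.IsGoodPrimeFor q ∧ q ≠ p) :
    strictProblem 𝒪 p S T (matRep (conjRep g (tateO hΔ p ψ)) hN) :=
  ⟨⟨detIsCyclotomic_matRep hΔ p ψ hpO,
    isStrictOrdinaryAt_matRep hΔ p ψ hpO hp2 hbad (hss p hp.out hbad),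
    (isUnramified_and_unipotent hΔ p ψ hpO hss S T hS).1⟩,
    (isUnramified_and_unipotent hΔ p ψ hpO hss S T hS).2⟩

/-! ## The reduction -/

/-- Reduction of `ℤ_p` to `ZMod p`. -/
def redP : ℤ_[p] →+* ZMod p :=
  (ZMod.castHom (dvd_pow_self p one_ne_zero) (ZMod p)).comp (PadicInt.toZModPow 1)

include hpO in
theorem residue_comp_psi (φ₀ : ZMod p →+* ResidueField 𝒪) :
    (residue 𝒪).comp ψ = φ₀.comp (redP p) := by
  refine RingHom.ext fun x => ?_
  set a := (PadicInt.toZModPow 1 x).val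
  have hmem : x - (a : ℤ_[p]) ∈ RingHom.ker (PadicInt.toZModPow 1) := by
    have : NeZero (p ^ 1) := ⟨pow_ne_zero 1 hp.out.ne_zero⟩
    rw [RingHom.mem_ker, map_sub, map_natCast, ZMod.natCast_zmod_val, sub_self]
  have hr : redP p (x - (a : ℤ_[p])) = 0 := by
    rw [redP, RingHom.comp_apply, RingHom.mem_ker.mp hmem, map_zero]
  rw [PadicInt.ker_toZModPow, pow_one, Ideal.mem_span_singleton] at hmem
  obtain ⟨y, hy⟩ := hmem
  have hl : residue 𝒪 (ψ (x - (a : ℤ_[p]))) = 0 := by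
    rw [hy, map_mul, map_natCast, map_mul, (residue_eq_zero_iff _).mpr hpO, zero_mul]
  rw [map_sub, map_sub, map_natCast, map_natCast, sub_eq_zero] at hl
  rw [map_sub, map_natCast, sub_eq_zero] at hr
  rw [RingHom.comp_apply, RingHom.comp_apply, hl, hr, map_natCast]

theorem exists_torsBasis_tate :
    ∃ c : Module.Basis (Fin 2) (ZMod p) (LevelDrop.torsRep hΔ p).V,
      repMatrix (LevelDrop.torsRep hΔ p).ρ c = mapRep (redP p) (tateMat hΔ p) := by
  have := isElliptic_rat hΔ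
  have mem : ∀ v, tatePt hΔ p 1 v ∈ TorsQ W p := fun v => by
    rw [Submodule.mem_torsionBy_iff, natCast_zsmul]
    simpa using pow_smul_tatePt hΔ p 1 v
  let P : Fin 2 → TorsQ W p := fun i => ⟨tatePt hΔ p 1 (Pi.single i 1), mem _⟩
  have hval : ∀ v, (⟨tatePt hΔ p 1 v, mem v⟩ : TorsQ W p) = redP p (v 0) • P 0 + redP p (v 1) • P 1 := by
    intro v
    refine Subtype.ext ?_
    have hz : ∀ (c : ℤ_[p]) (Q : TorsQ W p),
        ((redP p c • Q : TorsQ W p) : (WQbar W).toAffine.Point) =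
          (PadicInt.toZModPow 1 c).val • (Q : (WQbar W).toAffine.Point) := fun c Q => by
      have : NeZero (p ^ 1) := ⟨pow_ne_zero 1 hp.out.ne_zero⟩
      rw [redP, RingHom.comp_apply]
      conv_lhs => rw [← ZMod.natCast_zmod_val (PadicInt.toZModPow 1 c), map_natCast,
        Nat.cast_smul_eq_nsmul]
      rfl
    rw [Submodule.coe_add, hz, hz]
    show tatePt hΔ p 1 v = _ • tatePt hΔ p 1 _ + _ • tatePt hΔ p 1 _
    rw [← tatePt_smul, ← tatePt_smul, ← map_add]
    congr 1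
    funext j
    fin_cases j <;> simp
  have hli : LinearIndependent (ZMod p) ![P 0, P 1] := by
    rw [LinearIndependent.pair_iff]
    intro s t hst
    have : NeZero p := ⟨hp.out.ne_zero⟩
    have hv : ∀ i, (P i : (WQbar W).toAffine.Point) = (vec hΔ p 1 i : Pt W) := fun i => by
      have : Fact (1 < p ^ 1) := ⟨by rw [pow_one]; exact hp.out.one_lt⟩
      show tatePt hΔ p 1 (Pi.single i 1) = _
      rw [tatePt_eq]
      fin_cases i <;> simp only [Fin.sum_univ_two, Fin.zero_eta, Fin.mk_one, Fin.isValue,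
        Pi.single_eq_same, ne_eq, zero_ne_one, one_ne_zero, not_false_eq_true, Pi.single_eq_of_ne,
        map_one, map_zero, ZMod.val_one, ZMod.val_zero, one_nsmul, zero_nsmul, add_zero, zero_add]
    have h := congrArg Subtype.val hst
    rw [← ZMod.natCast_zmod_val s, ← ZMod.natCast_zmod_val t, Nat.cast_smul_eq_nsmul,
      Nat.cast_smul_eq_nsmul] at h
    simp only [Submodule.coe_add, Submodule.coe_smul_of_tower, hv, ZeroMemClass.coe_zero] at h
    rw [← natCast_zsmul, ← natCast_zsmul] at h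
    obtain ⟨h1, h2⟩ := vec_indep hΔ p 1 h
    rw [pow_one] at h1 h2
    exact ⟨by rw [← ZMod.natCast_zmod_val s, ZMod.natCast_eq_zero_iff]; exact_mod_cast h1,
      by rw [← ZMod.natCast_zmod_val t, ZMod.natCast_eq_zero_iff]; exact_mod_cast h2⟩
  have hcard : Fintype.card (Fin 2) = Module.finrank (ZMod p) (TorsQ W p) := by
    rw [Fintype.card_fin, Torsion.finrank_torsionBy_qbar (W.map (Int.castRingHom ℚ)) p]
  let c : Module.Basis (Fin 2) (ZMod p) (TorsQ W p) :=
    basisOfLinearIndependentOfCardEqFinrank hli hcard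
  have hc : ∀ i, c i = P i := fun i => by
    show basisOfLinearIndependentOfCardEqFinrank hli hcard i = _
    rw [coe_basisOfLinearIndependentOfCardEqFinrank]
    fin_cases i <;> rfl
  refine ⟨c, MonoidHom.ext fun σ => ?_⟩
  ext i j
  have e : (LevelDrop.torsRep hΔ p).ρ σ (c j) =
      redP p (tateMat hΔ p σ 0 j) • c 0 + redP p (tateMat hΔ p σ 1 j) • c 1 := by
    rw [hc, hc, hc]
    have h1 := hval (tateMat hΔ p σ *ᵥ Pi.single j 1)
    simp only [Matrix.mulVec_single_one, Matrix.col_apply] at h1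
    refine Eq.trans ?_ h1
    refine Subtype.ext ?_
    show σ • tatePt hΔ p 1 (Pi.single j 1) = tatePt hΔ p 1 _
    rw [← tatePt_mulVec, Matrix.mulVec_single_one]
  refine (LinearMap.toMatrix_apply c c ((LevelDrop.torsRep hΔ p).ρ σ) i j).trans ?_
  refine (congrArg (fun x : TorsQ W p => c.repr x i) e).trans ?_
  rw [mapRep_apply, Matrix.map_apply]
  fin_cases i <;> simp

include hpO in
/-- The Tate module over `𝒪` can be conjugated to lift `E[p]` exactly. -/
theorem exists_isLift (φ₀ : ZMod p →+* ResidueField 𝒪) :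
    ∃ g : (Mat 𝒪)ˣ, IsLift ((LevelDrop.torsRep hΔ p).baseChangeAlong φ₀) isCoeff_self
      (conjRep g (tateO hΔ p ψ)) := by
  set rb := (LevelDrop.torsRep hΔ p).baseChangeAlong φ₀ with hrb
  obtain ⟨c, hc⟩ := exists_torsBasis_tate hΔ p
  obtain ⟨c', hc'⟩ := exists_repMatrix_baseChangeAlong (LevelDrop.torsRep hΔ p) c φ₀
  obtain ⟨u, hu⟩ := exists_conj_of_equiv (ρ := rb.ρ) (τ := rb.ρ) c' (residualBasis rb)
    (LinearEquiv.refl _ _) fun _ _ => rfl
  obtain ⟨g, hg⟩ := exists_lift_units (isCoeff_self (𝒪 := 𝒪)) u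
  refine ⟨g, ?_⟩
  have hres : ((isCoeff_self (𝒪 := 𝒪)).toK : 𝒪 →+* ResidueField 𝒪) = residue 𝒪 :=
    RingHom.ext fun r => (isCoeff_self (𝒪 := 𝒪)).toK.commutes r
  rw [IsLift, mapRep_conjRep, hg, tateO, mapRep_mapRep, hres, residue_comp_psi p ψ hpO φ₀,
    ← mapRep_mapRep, ← hc, ← hc', barMatrix]
  exact hu.symm

end FLTAgent.RT.Tate
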