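import Fermat.Agent.RT.Tate.OverO
import Fermat.Agent.RT.Gen.LocalCoord
import Fermat.Agent.RT.LocalFacts
import Fermat.Agent.Deformation.Export

/-!
# The point of a deformation ring given by the Tate module

The point has Frobenius traces `a_ℓ`, and at a bad prime `q ≠ p` its coordinates satisfy the
relations with trace two, are ramified uniformly, and have trace `±(1 + q)` at Frobenius.
-/

set_option autoImplicit false
set_option linter.unusedSectionVars false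

noncomputable section

open IsLocalRing Matrix WeierstrassCurve

namespace FLTAgent.RT.Tate

open FLTAgent.Deformation FLTAgent.Tate FLTAgent.Reduction

local notation "Qb" => AlgebraicClosure ℚ

variable {W : WeierstrassCurve ℤ} (hΔ : W.Δ ≠ 0) (p : ℕ) [hp : Fact p.Prime]
  {𝒪 : Type} [CommRing 𝒪] [IsDomain 𝒪] [IsDiscreteValuationRing 𝒪]
  [IsAdicComplete (maximalIdeal 𝒪) 𝒪] (ψ : ℤ_[p] →+* 𝒪) (hpO : (p : 𝒪) ∈ maximalIdeal 𝒪)

/-- `x` is a point of `M` with the Galois action of the Tate module. -/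
def IsTatePoint {R : Type} [CommRing R] [Algebra 𝒪 R] (M : Gal →* Mat R) (x : R →ₐ[𝒪] 𝒪) : Prop :=
  ∃ u : (Mat 𝒪)ˣ, mapRep (x : R →+* 𝒪) M = conjRep u (tateO hΔ p ψ)

include hpO in
/-- **The point exists** for every deformation condition satisfied by the Tate module. -/
theorem exists_isTatePoint (φ₀ : ZMod p →+* ResidueField 𝒪)
    {𝒟 : ∀ ⦃A : Type⦄ [CommRing A] [IsLocalRing A] [Algebra 𝒪 A], GaloisRepAdic A → Prop}
    (h𝒟 : ∀ (g : (Mat 𝒪)ˣ) (hN : MatCont (conjRep g (tateO hΔ p ψ))),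
      𝒟 (matRep (conjRep g (tateO hΔ p ψ)) hN))
    (D : GaloisRep.DeformationRingData 𝒪 ((LevelDrop.torsRep hΔ p).baseChangeAlong φ₀) 𝒟)
    {M : Gal →* Mat D.R} {hM : MatCont M} (hequiv : D.ρ.IsEquiv (matRep M hM)) :
    ∃ x : D.R →ₐ[𝒪] 𝒪, IsTatePoint hΔ p ψ M x := by
  obtain ⟨g, hg⟩ := exists_isLift hΔ p ψ hpO φ₀
  have hN := (matCont_tateO hΔ p ψ hpO).conj g
  have := (isCoeff_self (𝒪 := 𝒪)).isLocalHom
  obtain ⟨x, ⟨hx, he⟩, -⟩ := D.universal 𝒪 (isCoeff_self (𝒪 := 𝒪)).residue_surjective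
    (matRep _ hN) (h𝒟 g hN)
    (residual_isEquiv_of_isLift isCoeff_self hg hN fun r => rfl)
  obtain ⟨e₁⟩ := baseChangeAlong_isEquiv_matRep (x : D.R →+* 𝒪) hx hequiv
  obtain ⟨e₂⟩ := he
  obtain ⟨u, hu⟩ := (isEquiv_matRep_iff hN (hM.map _ hx)).mp ⟨e₂.symm.trans e₁⟩
  exact ⟨x, u * g, by rw [hu, conjRep_conjRep]⟩

variable {R : Type} [CommRing R] [IsLocalRing R] [Algebra 𝒪 R] {M : Gal →* Mat R}
  {x : R →ₐ[𝒪] 𝒪}

theorem trace_point (hx : IsTatePoint hΔ p ψ M x) (σ : Gal) :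
    x (M σ).trace = ψ (tateMat hΔ p σ).trace := by
  obtain ⟨u, hu⟩ := hx
  have h := congrArg Matrix.trace (DFunLike.congr_fun hu σ)
  rw [conjRep_apply, Matrix.trace_units_conj, tateO, mapRep_apply, mapRep_apply,
    Matrix.trace_fin_two, Matrix.trace_fin_two] at h
  simpa [Matrix.trace_fin_two] using h

/-- At a good prime `ℓ ≠ p` the trace at Frobenius is `a_ℓ`. -/
theorem trace_point_frobenius (hx : IsTatePoint hΔ p ψ M x) {l : ℕ} (hl : l.Prime)
    (hgood : W.IsGoodPrimeFor l) (hlp : l ≠ p) {A : ValuationSubring Qb} (hA : A.LiesOverPrime l)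
    {σ : Gal} (hσ : A.IsFrobeniusAt σ l) : x (M σ).trace = (W.apOfModel l : 𝒪) := by
  rw [trace_point hΔ p ψ hx, trace_tateMat_frobenius hΔ p hl hgood hlp A hA σ hσ, map_intCast]

/-- At a semistable `q ≠ p` the trace of inertia is two. -/
theorem trace_point_inertia (hss : W.IsSemistableModel) (hx : IsTatePoint hΔ p ψ M x) {q : ℕ}
    (hq : q.Prime) (hqp : q ≠ p) {A : ValuationSubring Qb} (hA : A.LiesOverPrime q) {σ : Gal}
    (hσ : σ ∈ A.inertiaSubgroupIn ℚ) : x (M σ).trace = 2 := by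
  obtain ⟨ht, -⟩ := trace_det_conj_tateO_inertia hΔ p ψ (g := 1) hss hq hqp hA hσ
  rw [conjRep_one, tateO, mapRep_apply, Matrix.trace_fin_two, Matrix.map_apply, Matrix.map_apply,
    ← map_add, ← Matrix.trace_fin_two] at ht
  rw [trace_point hΔ p ψ hx, ht]

variable {D : LocalDatum 𝒪} {A : ValuationSubring Qb} {φ : Gal}

/-- The coordinates of the point satisfy the relations with trace two. -/
theorem rel_point (hss : W.IsSemistableModel) (hx : IsTatePoint hΔ p ψ M x) {q : ℕ}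
    (hq : q.Prime) (hqp : q ≠ p) (hA : A.LiesOverPrime q) (C : Gen.LocalCoord D M A φ) :
    D.Rel 2 fun k => x (C.v k) where
  det_phi := by
    rw [← D.phiMat_map x, ← AlgHom.mapMatrix_apply, ← AlgHom.map_det, C.det_phi, map_natCast]
  comm := by
    rw [← D.phiMat_map x, ← sMat_map x, ← AlgHom.mapMatrix_apply, ← AlgHom.mapMatrix_apply,
      ← map_pow, ← map_mul, ← map_mul, C.comm]
  trace_s := by
    rw [← sMat_map x, Matrix.trace_fin_two, Matrix.map_apply, Matrix.map_apply, ← map_add,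
      ← Matrix.trace_fin_two, C.trace_sMat, trace_point_inertia hΔ p ψ hss hx hq hqp hA C.tau_mem,
      Algebra.algebraMap_self_apply]
  det_s := by
    rw [← sMat_map x, ← AlgHom.mapMatrix_apply, ← AlgHom.map_det, C.det_s, map_one]

theorem isNorm_point (C : Gen.LocalCoord D M A φ) (x : R →ₐ[𝒪] 𝒪) :
    D.IsNorm fun k => x (C.v k) :=
  C.isNorm.map x

/-- The sign of the multiplicative prime, with the trace at Frobenius. -/
theorem exists_sign_point (hp2 : p ≠ 2) (hR : IsCoeff 𝒪 R) (hx : IsTatePoint hΔ p ψ M x) {q : ℕ}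
    (hq : q.Prime) (hqp : q ≠ p) (hDq : D.q = q) (hbad : (q : ℤ) ∣ W.Δ) (hc₄ : ¬(q : ℤ) ∣ W.c₄)
    (hA : A.LiesOverPrime q) (hφ : A.IsFrobeniusAt φ q) (C : Gen.LocalCoord D M A φ) :
    ∃ z : ℤ, (z = 1 ∨ z = -1) ∧ (tateMat hΔ p φ).trace = (z : ℤ_[p]) * ((q : ℤ_[p]) + 1) ∧
      D.SignOK (z : 𝒪) ∧ (D.phiMat fun k => x (C.v k)).trace = (z : 𝒪) * ((D.q : 𝒪) + 1) := by
  obtain ⟨z, hz, -, hmem⟩ := exists_smul_sub_zsmul_mem_zeroSubgroup hA hq hΔ hbad hc₄ hφ.1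
  obtain ⟨σ₁, hσ₁, hne⟩ := exists_inertia_tateMat_ne_one hΔ p hA hq hp2 hbad hc₄
  obtain ⟨G, hG⟩ := exists_basis_lineZero hΔ p hA hq hp2 hbad hc₄
    (exists_ne_zero_mem_lineZero hΔ p hA hq hbad hc₄ hσ₁ hne)
  obtain ⟨h10, h11⟩ := shape_of_sub_mem hΔ p hG (sub_sign_smul_mem hΔ p hmem)
  set X := conjRep G (tateMat hΔ p) φ with hX
  have hsq : (z : ℤ_[p]) * z = 1 := by rcases hz with rfl | rfl <;> simp
  have hdet : X 0 0 * X 1 1 = (q : ℤ_[p]) := by
    rw [← GalRep.cyclo_frobenius (p := p) hq hqp hA hφ, ← det_tateMat hΔ p φ,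
      ← Matrix.det_units_conj G (tateMat hΔ p φ), ← conjRep_apply, ← hX, Matrix.det_fin_two, h10,
      mul_zero, sub_zero]
  have h00 : X 0 0 = (q : ℤ_[p]) * z := by
    rw [← hdet, h11, mul_assoc, hsq, mul_one]
  have htr : (tateMat hΔ p φ).trace = (z : ℤ_[p]) * ((q : ℤ_[p]) + 1) := by
    rw [← Matrix.trace_units_conj G (tateMat hΔ p φ), ← conjRep_apply, ← hX, Matrix.trace_fin_two,
      h00, h11]
    ring
  have htrY : (D.phiMat fun k => x (C.v k)).trace = (z : 𝒪) * ((D.q : 𝒪) + 1) := by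
    rw [← D.phiMat_map x, Matrix.trace_fin_two, Matrix.map_apply, Matrix.map_apply, ← map_add,
      ← Matrix.trace_fin_two, ← C.phi_eq, conjRep_apply, Matrix.trace_units_conj,
      trace_point hΔ p ψ hx, htr, map_mul, map_add, map_intCast, map_natCast, map_one, hDq]
  refine ⟨z, hz, htr, ⟨by rcases hz with rfl | rfl <;> simp, ?_⟩, htrY⟩
  have hv : ∀ k, x (C.v k) ∈ maximalIdeal 𝒪 := fun k =>
    hR.map_mem_maximalIdeal isCoeff_self x (C.mem_maximalIdeal k)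
  rcases hb : D.base with c | T
  · dsimp only
    -- both diagonal entries of the triangular form are congruent to the scalar
    obtain ⟨u, hu⟩ := hx
    obtain ⟨w, hw⟩ : ∃ w : (Mat 𝒪)ˣ,
        (X.map ψ) = (w : Mat 𝒪) * D.phiMat (fun k => x (C.v k)) * ((w⁻¹ : (Mat 𝒪)ˣ) : Mat 𝒪) := by
      let Gψ : (Mat 𝒪)ˣ := Units.map (RingHom.mapMatrix (m := Fin 2) ψ).toMonoidHom G
      let Cx : (Mat 𝒪)ˣ :=
        Units.map (RingHom.mapMatrix (m := Fin 2) (x : R →+* 𝒪)).toMonoidHom C.g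
      refine ⟨Gψ * u⁻¹ * Cx⁻¹, ?_⟩
      have h1 : D.phiMat (fun k => x (C.v k)) = conjRep (Cx * u) (tateO hΔ p ψ) φ := by
        rw [← D.phiMat_map x, ← C.phi_eq, ← conjRep_conjRep, ← hu, ← mapRep_conjRep]
        rfl
      have h2 : X.map ψ = conjRep Gψ (tateO hΔ p ψ) φ := by
        rw [hX, tateO, ← mapRep_conjRep]
        rfl
      rw [h1, h2, show Gψ = Gψ * u⁻¹ * Cx⁻¹ * (Cx * u) by group, ← conjRep_conjRep,
        conjRep_apply (Gψ * u⁻¹ * Cx⁻¹)]
      group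
    have hY : ∀ a b, (D.phiMat (fun k => x (C.v k)) - c • (1 : Mat 𝒪)) a b ∈ maximalIdeal 𝒪 := by
      intro a b
      fin_cases a <;> fin_cases b <;> simp [LocalDatum.phiMat, LocalDatum.baseMat, hb, hv]
    have hXc : ∀ a b, (X.map ψ - c • (1 : Mat 𝒪)) a b ∈ maximalIdeal 𝒪 := fun a b => by
      rw [show X.map ψ - c • (1 : Mat 𝒪) = (w : Mat 𝒪) *
          (D.phiMat (fun k => x (C.v k)) - c • (1 : Mat 𝒪)) * ↑w⁻¹ by
        rw [mul_sub, sub_mul, Matrix.mul_smul, mul_one, Matrix.smul_mul, Units.mul_inv, ← hw],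
        Matrix.mul_apply]
      refine Ideal.sum_mem _ fun i _ => Ideal.mul_mem_right _ _ ?_
      rw [Matrix.mul_apply]
      exact Ideal.sum_mem _ fun j _ => Ideal.mul_mem_left _ _ (hY j i)
    have e0 := hXc 0 0
    have e1 := hXc 1 1
    rw [Matrix.sub_apply, Matrix.map_apply, Matrix.smul_apply, Matrix.one_apply_eq, smul_eq_mul,
      mul_one] at e0 e1
    rw [h00, map_mul, map_natCast, map_intCast, ← hDq, mul_comm] at e0
    rw [h11, map_intCast] at e1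
    exact ⟨e0, e1⟩
  · dsimp only
    have hsum : (D.phiMat fun k => x (C.v k)).trace - T ∈ maximalIdeal 𝒪 := by
      rw [Matrix.trace_fin_two]
      have h : D.phiMat (fun k => x (C.v k)) 0 0 + D.phiMat (fun k => x (C.v k)) 1 1 - T =
          x (C.v 0) + x (C.v 3) := by
        simp [LocalDatum.phiMat, LocalDatum.baseMat, hb]
        ring
      rw [h]
      exact add_mem (hv 0) (hv 3)
    rwa [htrY, show (z : 𝒪) * ((D.q : 𝒪) + 1) = z * (1 + D.q) by ring] at hsum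

theorem eq_one_of_conj {A : Type} [CommRing A] (G : (Mat A)ˣ) {Y : Mat A}
    (h : (G : Mat A) * Y * ((G⁻¹ : (Mat A)ˣ) : Mat A) = 1) : Y = 1 := by
  have := congrArg (fun Z => ((G⁻¹ : (Mat A)ˣ) : Mat A) * Z * (G : Mat A)) h
  simpa [mul_assoc] using this

variable [CharZero 𝒪]

include hpO in
theorem psi_injective : Function.Injective ψ := by
  refine (injective_iff_map_eq_zero ψ).mpr fun a ha => ?_
  by_contra ha0
  rw [PadicInt.unitCoeff_spec ha0, map_mul, map_pow, map_natCast,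
    ((PadicInt.unitCoeff ha0).isUnit.map ψ).mul_right_eq_zero] at ha
  exact hp.out.ne_zero (Nat.cast_eq_zero.mp (pow_eq_zero_iff'.mp ha).1)

include hpO in
/-- **Uniform ramification** of the point at a multiplicative prime. -/
theorem exists_ramified_point (hp2 : p ≠ 2) {q : ℕ} (hq : q.Prime) (hbad : (q : ℤ) ∣ W.Δ)
    (hc₄ : ¬(q : ℤ) ∣ W.c₄) {A : ValuationSubring Qb} (hA : A.LiesOverPrime q) :
    ∃ K : ℕ, ∀ (R : Type) [CommRing R] [IsLocalRing R] [Algebra 𝒪 R], IsCoeff 𝒪 R →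
      ∀ (M : Gal →* Mat R) (x : R →ₐ[𝒪] 𝒪), IsTatePoint hΔ p ψ M x →
        ∀ (D : LocalDatum 𝒪) (φ : Gal) (C : Gen.LocalCoord D M A φ),
          ∃ k : Fin 8, 4 ≤ k ∧ x (C.v k) ∉ maximalIdeal 𝒪 ^ K := by
  obtain ⟨σ, hσ, hne⟩ := exists_inertia_tateMat_ne_one hΔ p hA hq hp2 hbad hc₄
  obtain ⟨a, b, hab⟩ : ∃ a b, tateO hΔ p ψ σ a b - (1 : Mat 𝒪) a b ≠ 0 := by
    by_contra h
    push Not at h
    refine hne (Matrix.ext fun a b => psi_injective p ψ hpO ?_)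
    have := sub_eq_zero.mp (h a b)
    rw [tateO, mapRep_apply, Matrix.map_apply] at this
    rw [this, Matrix.one_apply, Matrix.one_apply]
    split <;> simp
  obtain ⟨K, hK⟩ : ∃ K, tateO hΔ p ψ σ a b - (1 : Mat 𝒪) a b ∉ maximalIdeal 𝒪 ^ K := by
    by_contra h
    push Not at h
    exact hab (eq_zero_of_forall_mem_pow h)
  refine ⟨K, fun R _ _ _ hR M x hx D φ C => ?_⟩
  by_contra hall
  push Not at hall
  obtain ⟨u, hu⟩ := hx
  let q₀ : 𝒪 →+* 𝒪 ⧸ maximalIdeal 𝒪 ^ K := Ideal.Quotient.mk _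
  have hs : (sMat C.v).map (q₀.comp (x : R →+* 𝒪)) = 1 := by
    ext i j
    have h4 : ∀ k : Fin 8, 4 ≤ k → q₀ (x (C.v k)) = 0 := fun k hk =>
      Ideal.Quotient.eq_zero_iff_mem.mpr (hall k hk)
    fin_cases i <;> fin_cases j <;> simp [sMat, h4]
  obtain ⟨j, hj⟩ := C.gen K σ hσ
  have hle : maximalIdeal R ^ K ≤ RingHom.ker (q₀.comp (x : R →+* 𝒪)) := fun r hr =>
    Ideal.Quotient.eq_zero_iff_mem.mpr (hR.map_mem_maximalIdeal_pow isCoeff_self x hr)
  let F : R ⧸ maximalIdeal R ^ K →+* 𝒪 ⧸ maximalIdeal 𝒪 ^ K :=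
    Ideal.Quotient.lift _ (q₀.comp (x : R →+* 𝒪)) fun r hr => hle hr
  have e : ∀ y, mapRep (q₀.comp (x : R →+* 𝒪)) M y = F.mapMatrix (Gen.modPow M K y) := fun y => by
    ext i j
    rfl
  have hτ : mapRep (q₀.comp (x : R →+* 𝒪)) M C.τ = 1 := by
    have h1 : mapRep (q₀.comp (x : R →+* 𝒪)) (conjRep C.g M) C.τ = 1 := by
      rw [mapRep_apply, C.tau_eq, hs]
    rw [mapRep_conjRep, conjRep_apply] at h1
    exact eq_one_of_conj _ h1
  have hσ1 : mapRep (q₀.comp (x : R →+* 𝒪)) M σ = 1 := by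
    rw [e, hj, map_pow, ← e, hτ, one_pow]
  rw [← mapRep_mapRep, hu, mapRep_conjRep, conjRep_apply] at hσ1
  have h2 : mapRep q₀ (tateO hΔ p ψ) σ = 1 := eq_one_of_conj _ hσ1
  refine hK (Ideal.Quotient.eq_zero_iff_mem.mp ?_)
  have h3 := congrFun (congrFun h2 a) b
  rw [mapRep_apply, Matrix.map_apply] at h3
  show q₀ _ = 0
  rw [map_sub, h3, Matrix.one_apply, Matrix.one_apply]
  split <;> simp

end FLTAgent.RT.Tate
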